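import Fermat.Agent.S52.Fam.Defs

/-!
# S52, piece B-data: the syzygy of the explicit 5-congruent family

`C4 ^ 3 - C6 ^ 2 = (c₄ ^ 3 - c₆ ^ 2) * Fk ^ 5` for the family polynomials of
`Fermat.Agent.S52.Fam` (data of helper952 = data of helper832, identical coefficients).
-/

set_option autoImplicit false
set_option maxHeartbeats 0
set_option maxRecDepth 100000

namespace Fermat.Agent.S52.B.H832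

variable {R : Type*} [CommRing R]

/-- (S) the syzygy: `Δ(E_τ) = Δ(E) · Fk(τ)^5` up to the factor `1728`. -/
theorem fam_syzygy (c₄ c₆ τ : R) :
    Fam.C4 c₄ c₆ τ ^ 3 - Fam.C6 c₄ c₆ τ ^ 2 = (c₄ ^ 3 - c₆ ^ 2) * Fam.Fk c₄ c₆ τ ^ 5 := by
  simp only [Fam.C4, Fam.C6, Fam.Fk, Fam.C4_0, Fam.C4_1, Fam.C4_2, Fam.C4_3, Fam.C4_4, Fam.C4_5, Fam.C4_6, Fam.C4_7, Fam.C4_8, Fam.C4_9, Fam.C4_10, Fam.C4_11, Fam.C4_12, Fam.C4_13, Fam.C4_14, Fam.C4_15, Fam.C4_16, Fam.C4_17, Fam.C4_18, Fam.C4_19, Fam.C4_20, Fam.C6_0, Fam.C6_1, Fam.C6_2, Fam.C6_3, Fam.C6_4, Fam.C6_5, Fam.C6_6, Fam.C6_7, Fam.C6_8, Fam.C6_9, Fam.C6_10, Fam.C6_11, Fam.C6_12, Fam.C6_13, Fam.C6_14, Fam.C6_15, Fam.C6_16, Fam.C6_17, Fam.C6_18, Fam.C6_19, Fam.C6_20, Fam.C6_21, Fam.C6_22, Fam.C6_23, Fam.C6_24, Fam.C6_25, Fam.C6_26, Fam.C6_27,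 Fam.C6_28, Fam.C6_29, Fam.C6_30, Fam.Fk_0, Fam.Fk_2, Fam.Fk_3, Fam.Fk_4, Fam.Fk_5, Fam.Fk_6, Fam.Fk_7, Fam.Fk_8, Fam.Fk_9, Fam.Fk_10, Fam.Fk_11, Fam.Fk_12]
  ring

end Fermat.Agent.S52.B.H832
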